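import Mathlib.NumberTheory.Zsqrtd.Basic
import Fermat.Prelude.Def_LanglandsTunnell_ExplicitLift
import Fermat.Agent.ResidualThree.Galois.Group
import Fermat.Agent.ResidualThree.Interfaces

/-!
# Complex two-dimensional representations of `GL₂(𝔽₃)` with quaternionic traces on `Q₈`

Such a representation has the character of the lift `Ψ`, for a suitable embedding of `ℤ[√-2]`.
-/

noncomputable section

namespace Fermat.Agent.WeightOneLift

open Matrix Fermat.Agent.ResidualThree FLT.ExplicitLift

local notation "G48" => GL (Fin 2) (ZMod 3)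
local notation "M2" => Matrix (Fin 2) (Fin 2) (ZMod 3)
local notation "MC" => Matrix (Fin 2) (Fin 2) ℂ

/-- Sign determinant and quaternionic traces on `Q₈`. -/
structure IsQuatRep (R : G48 →* GL (Fin 2) ℂ) : Prop where
  det_one : ∀ g : G48, (g : M2).det = 1 → (R g : MC).det = 1
  det_neg : ∀ g : G48, (g : M2).det = -1 → (R g : MC).det = -1
  quat : ∀ g : G48, (g : M2).det = 1 → g ^ 4 = 1 → (R g : MC).trace = (quatTrace g : ℂ)

/-- A matrix of determinant one and order dividing three is trivial or has trace `-1`. -/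
theorem trace_eq_neg_one_of_cube {M : MC} (hd : M.det = 1) (h3 : M ^ 3 = 1) (hne : M ≠ 1) :
    M.trace = -1 := by
  set t := M.trace with ht
  have e : (t ^ 2 - 1) • M = (1 + t) • (1 : MC) := by
    have e3 : M ^ 3 = (t ^ 2 - 1) • M - t • 1 := cube_eq_of_det_one hd
    rw [h3] at e3
    rw [add_smul, one_smul, eq_add_of_sub_eq e3.symm]
  by_contra htn
  have hc : t ^ 2 - 1 ≠ 0 := fun h0 => by
    have h1 := congrFun (congrFun e 0) 0
    rw [h0] at h1
    simp at h1
    exact htn (by linear_combination -h1)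
  set c := (1 + t) / (t ^ 2 - 1)
  have hM : M = c • (1 : MC) := by
    rw [eq_inv_smul_iff₀ hc |>.mpr e, smul_smul]
    simp only [c, div_eq_inv_mul]
  have hd' : c ^ 2 = 1 := by rw [← hd, hM]; simp [pow_two]
  rcases sq_eq_one_iff.mp hd' with h | h
  · exact hne (by rw [hM, h, one_smul])
  · rw [hM, h, neg_smul, one_smul, neg_pow] at h3
    have h4 := congrFun (congrFun h3 0) 0
    norm_num at h4

/-- The trace of an element of `GL₂(𝔽₃)` is `0` or a sign. -/
theorem gl_trace_cases (g : G48) :
    (g : M2).trace = 0 ∨ (g : M2).trace = 1 ∨ (g : M2).trace = -1 :=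
  (by decide : ∀ t : ZMod 3, t = 0 ∨ t = 1 ∨ t = -1) _

theorem neg_one_det : ((-1 : G48) : M2).det = 1 := by
  rw [Units.val_neg, Units.val_one, det_neg, det_one]; rfl

/-- An element of determinant one and trace `-1` is killed by three. -/
theorem cube_one_of_trace_neg {g : G48} (hd : (g : M2).det = 1) (ht : (g : M2).trace = -1) :
    g ^ 3 = 1 :=
  Units.ext (by rw [Units.val_pow_eq_pow_val, cube_eq_of_det_one hd, ht, neg_one_sq, sub_self,
    zero_smul, zero_sub, neg_smul, one_smul, neg_neg, Units.val_one])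

theorem trace_neg_apply (g : G48) : ((-g : G48) : M2).trace = -(g : M2).trace := by
  rw [Units.val_neg, trace_neg]

theorem det_neg_apply (g : G48) : ((-g : G48) : M2).det = (g : M2).det := by
  rw [Units.val_neg, det_neg]; simp

namespace IsQuatRep

variable {R : G48 →* GL (Fin 2) ℂ} (hR : IsQuatRep R)
include hR

/-- The central involution maps to `-1`. -/
theorem map_neg_one : R (-1) = -1 := by
  have ht : (R (-1) : MC).trace = -2 := by
    rw [hR.quat _ neg_one_det (Even.neg_one_pow (by decide)), quatTrace, if_neg neg_one_ne_one_gl,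
      if_pos (by rw [Units.val_neg, Units.val_one])]
    norm_num
  have h := mul_self_trace_det (R (-1) : MC)
  rw [hR.det_one _ neg_one_det, ht, ← Units.val_mul, ← map_mul, neg_mul_neg, one_mul, map_one,
    Units.val_one, one_smul] at h
  refine Units.ext ?_
  rw [Units.val_neg, Units.val_one]
  ext i j
  have hij := congrFun (congrFun h i) j
  fin_cases i <;> fin_cases j <;> simp at hij ⊢ <;>
    first | linear_combination hij / 2 | linear_combination hij

theorem map_neg (g : G48) : (R (-g) : MC) = -(R g : MC) := by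
  rw [← neg_one_mul g, map_mul, hR.map_neg_one, Units.val_mul, Units.val_neg, Units.val_one,
    neg_mul, one_mul]

/-- Elements of determinant one and trace zero have trace zero. -/
theorem trace_zero_of_trace_zero {g : G48} (hd : (g : M2).det = 1) (ht : (g : M2).trace = 0) :
    (R g : MC).trace = 0 := by
  have h1 : g ≠ 1 := fun e => by rw [e, Units.val_one] at ht; exact absurd ht (by decide)
  have h2 : (g : M2) ≠ -1 := fun e => by rw [e] at ht; exact absurd ht (by decide)
  rw [hR.quat g hd (pow_four_of_sq_neg_one (sq_eq_neg_one hd ht)), quatTrace,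
    if_neg h1, if_neg h2, Int.cast_zero]

/-- A non-trivial element of determinant one and trace `-1` has non-trivial image. -/
theorem map_ne_one {g : G48} (hd : (g : M2).det = 1) (ht : (g : M2).trace = -1) (hne : g ≠ 1) :
    (R g : MC) ≠ 1 := by
  intro hg
  obtain ⟨J, hJd, hJt, hgJ⟩ : ∃ J : G48, (J : M2).det = 1 ∧ (J : M2).trace = 0 ∧
      ((g * J : G48) : M2).trace ≠ 0 := by
    refine ⟨⟨!![0, -1; 1, 0], !![0, 1; -1, 0], by decide, by decide⟩, by decide, by decide, ?_⟩
    have hn : (g : M2) 0 0 ≠ 1 ∨ (g : M2) 0 1 ≠ 0 ∨ (g : M2) 1 0 ≠ 0 ∨ (g : M2) 1 1 ≠ 1 := by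
      by_contra h
      push Not at h
      refine hne (Units.ext ?_)
      ext i j
      fin_cases i <;> fin_cases j <;> simp [h]
    rw [trace_fin_two] at ht
    rw [det_fin_two] at hd
    rw [Units.val_mul]
    simp only [trace_fin_two, Matrix.mul_apply, Fin.sum_univ_two]
    revert hd ht hn
    generalize (g : M2) 0 0 = a
    generalize (g : M2) 0 1 = b
    generalize (g : M2) 1 0 = c
    generalize (g : M2) 1 1 = d
    revert a b c d
    decide
  have hRJ : (R J : MC) * R J = -1 := by
    rw [← Units.val_mul, ← map_mul, sq_eq_neg_one hJd hJt, hR.map_neg_one,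
      Units.val_neg, Units.val_one]
  have hh : (R (g * J) : MC) = R J := by rw [map_mul, Units.val_mul, hg, one_mul]
  have hd' : ((g * J : G48) : M2).det = 1 := by rw [Units.val_mul, det_mul, hd, hJd, one_mul]
  have hJne : ∀ ε : ℂ, ε ^ 2 = 1 → (R J : MC) ≠ ε • 1 := fun ε hε e => by
    rw [e, smul_mul_smul_comm, one_mul, ← pow_two, hε, one_smul] at hRJ
    have h0 := congrFun (congrFun hRJ 0) 0
    norm_num at h0
  rcases gl_trace_cases (g * J) with h | h | h
  · exact hgJ h
  · have h3 := cube_one_of_trace_neg (g := -(g * J)) (by rw [det_neg_apply]; exact hd')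
      (by rw [trace_neg_apply, h])
    have h4 := congrArg (fun x : G48 => (R x : MC)) h3
    simp only [map_pow, Units.val_pow_eq_pow_val, hR.map_neg, hh, map_one, Units.val_one] at h4
    rw [pow_succ, pow_two, neg_mul_neg, hRJ, neg_mul_neg, one_mul] at h4
    exact hJne 1 (one_pow 2) (by rw [h4, one_smul])
  · have h3 := cube_one_of_trace_neg hd' h
    have h4 := congrArg (fun x : G48 => (R x : MC)) h3
    simp only [map_pow, Units.val_pow_eq_pow_val, hh, map_one, Units.val_one] at h4
    rw [pow_succ, pow_two, hRJ, neg_mul, one_mul] at h4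
    exact hJne (-1) neg_one_sq (by rw [neg_smul, one_smul, ← h4, neg_neg])

/-- Nontrivial elements of determinant one and trace `-1` have trace `-1`. -/
theorem trace_neg_one_of_trace_neg {g : G48} (hd : (g : M2).det = 1)
    (ht : (g : M2).trace = -1) (hne : g ≠ 1) : (R g : MC).trace = -1 :=
  trace_eq_neg_one_of_cube (hR.det_one g hd)
    (by rw [← Units.val_pow_eq_pow_val, ← map_pow, cube_one_of_trace_neg hd ht, map_one,
      Units.val_one])
    (hR.map_ne_one hd ht hne)

/-- Elements of determinant `-1` and trace zero have trace zero. -/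
theorem trace_det_neg_zero {g : G48} (hd : (g : M2).det = -1) (ht : (g : M2).trace = 0) :
    (R g : MC).trace = 0 := by
  have hgg : g * g = 1 := Units.ext (by
    rw [Units.val_mul, mul_self_trace_det, hd, ht, zero_smul, zero_sub, neg_smul, one_smul, neg_neg,
      Units.val_one])
  have h := mul_self_trace_det (R g : MC)
  rw [hR.det_neg g hd, ← Units.val_mul, ← map_mul, hgg, map_one, Units.val_one, neg_smul,
    one_smul, sub_neg_eq_add] at h
  have h' := congrArg Matrix.det (add_eq_right.mp h.symm)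
  rw [det_smul, hR.det_neg g hd, det_zero] at h'
  simpa using h'

/-- Elements of determinant `-1` and nonzero trace have traces of square `-2`. -/
theorem trace_sq_det_neg {g : G48} (hd : (g : M2).det = -1) (ht : (g : M2).trace ≠ 0) :
    (R g : MC).trace ^ 2 = -2 := by
  have htt : ((g * g : G48) : M2).trace = 0 := by
    rw [Units.val_mul, mul_self_trace_det, hd, trace_sub, trace_smul, trace_smul, trace_one,
      smul_eq_mul, smul_eq_mul, Fintype.card_fin]
    exact (by decide : ∀ t : ZMod 3, t ≠ 0 → t * t - -1 * ((2 : ℕ) : ZMod 3) = 0) _ ht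
  have h := hR.trace_zero_of_trace_zero
    (by rw [Units.val_mul, det_mul, hd]; decide) htt
  rw [map_mul, Units.val_mul, mul_self_trace_det, hR.det_neg g hd, trace_sub, trace_smul,
    trace_smul, trace_one, smul_eq_mul, smul_eq_mul, Fintype.card_fin] at h
  push_cast at h
  linear_combination h

end IsQuatRep

/-- The standard element of trace one and determinant minus one. -/
def octStd : G48 := ⟨!![0, 1; 1, 1], !![-1, 1; 1, 0], by decide, by decide⟩

/-- Elements of determinant `-1` and trace `1` are conjugate to the standard one. -/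
theorem conj_octStd {g : G48} (hd : (g : M2).det = -1) (ht : (g : M2).trace = 1) :
    ∃ h : G48, g * h = h * octStd := by
  have hne : (g : M2) 1 0 ≠ 0 := by
    rw [trace_fin_two] at ht
    rw [det_fin_two] at hd
    revert hd ht
    generalize (g : M2) 0 0 = a
    generalize (g : M2) 0 1 = b
    generalize (g : M2) 1 0 = c
    generalize (g : M2) 1 1 = d
    revert a b c d
    decide
  refine ⟨GeneralLinearGroup.mkOfDetNeZero !![1, (g : M2) 0 0; 0, (g : M2) 1 0]
    (by rw [det_fin_two_of, one_mul, mul_zero, sub_zero]; exact hne), Units.ext ?_⟩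
  rw [trace_fin_two] at ht
  rw [det_fin_two] at hd
  ext i j
  fin_cases i <;> fin_cases j <;>
    simp [octStd, Matrix.mul_apply, Fin.sum_univ_two, GeneralLinearGroup.mkOfDetNeZero]
  · linear_combination (g : M2) 0 0 * ht - hd
  · linear_combination (g : M2) 1 0 * ht

/-- The trace of a representation is invariant under conjugation. -/
theorem trace_map_conj {A : Type*} [CommRing A] (R : G48 →* GL (Fin 2) A) {g g' h : G48}
    (e : g * h = h * g') :
    (R g : Matrix (Fin 2) (Fin 2) A).trace = (R g' : Matrix (Fin 2) (Fin 2) A).trace := by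
  have eg : g = h * g' * h⁻¹ := by rw [← e, mul_inv_cancel_right]
  rw [eg, map_mul, map_mul, map_inv, Units.val_mul, Units.val_mul, trace_mul_comm, ← mul_assoc,
    Units.inv_mul, one_mul]

/-- The character is determined by one element of order eight. -/
theorem trace_ext {R₁ R₂ : G48 →* GL (Fin 2) ℂ} (h₁ : IsQuatRep R₁) (h₂ : IsQuatRep R₂)
    (he : (R₁ octStd : MC).trace = (R₂ octStd : MC).trace) (g : G48) :
    (R₁ g : MC).trace = (R₂ g : MC).trace := by
  have hneg : ∀ {g : G48}, (R₁ (-g) : MC).trace = (R₂ (-g) : MC).trace →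
      (R₁ g : MC).trace = (R₂ g : MC).trace := fun {g} e => by
    rwa [h₁.map_neg, h₂.map_neg, trace_neg, trace_neg, neg_inj] at e
  have hneg1 : ∀ g : G48, (g : M2).det = 1 → (g : M2).trace = -1 →
      (R₁ g : MC).trace = (R₂ g : MC).trace := fun g hd ht => by
    by_cases hne : g = 1
    · rw [hne, map_one, map_one]
    · rw [h₁.trace_neg_one_of_trace_neg hd ht hne, h₂.trace_neg_one_of_trace_neg hd ht hne]
  have hoct : ∀ g : G48, (g : M2).det = -1 → (g : M2).trace = 1 →
      (R₁ g : MC).trace = (R₂ g : MC).trace := fun g hd ht => by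
    obtain ⟨h, hh⟩ := conj_octStd hd ht
    rw [trace_map_conj R₁ hh, trace_map_conj R₂ hh, he]
  rcases det_eq_one_or_neg_one g with hd | hd <;> rcases gl_trace_cases g with ht | ht | ht
  · rw [h₁.trace_zero_of_trace_zero hd ht, h₂.trace_zero_of_trace_zero hd ht]
  · exact hneg (hneg1 _ (by rw [det_neg_apply]; exact hd) (by rw [trace_neg_apply, ht]))
  · exact hneg1 g hd ht
  · rw [h₁.trace_det_neg_zero hd ht, h₂.trace_det_neg_zero hd ht]
  · exact hoct g hd ht
  · exact hneg (hoct _ (by rw [det_neg_apply]; exact hd) (by rw [trace_neg_apply, ht, neg_neg]))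

/-! ### The lift -/

/-- The units of `ℤ[√-2]` are `±1`. -/
theorem unit_zsqrtd_neg_two (u : (ℤ√(-2))ˣ) :
    (u : ℤ√(-2)) = 1 ∨ (u : ℤ√(-2)) = -1 := by
  have h : (u : ℤ√(-2)).norm = 1 := by
    have h1 : (u : ℤ√(-2)).norm * (↑u⁻¹ : ℤ√(-2)).norm = 1 := by
      rw [← Zsqrtd.norm_mul, Units.mul_inv, Zsqrtd.norm_one]
    exact Int.eq_one_of_mul_eq_one_right (Zsqrtd.norm_nonneg (by norm_num) _) h1
  rw [Zsqrtd.norm_def] at h
  generalize (u : ℤ√(-2)) = x at h ⊢
  obtain ⟨a, b⟩ := x
  simp only [Zsqrtd.ext_iff, Zsqrtd.re_one, Zsqrtd.im_one, Zsqrtd.re_neg, Zsqrtd.im_neg, neg_zero]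
  have hb : b = 0 := by nlinarith [mul_self_nonneg a, mul_self_nonneg b]
  subst hb
  rcases mul_self_eq_one_iff.mp (show a * a = 1 by linarith) with e | e <;> simp [e]

variable {Ψ : G48 →* GL (Fin 2) (ℤ√(-2))}
  (hΨ : ∀ g, Matrix.GeneralLinearGroup.map red (Ψ g) = g)

include hΨ

theorem red_lift (g : G48) : (Ψ g : Matrix (Fin 2) (Fin 2) (ℤ√(-2))).map red = (g : M2) :=
  congrArg Units.val (hΨ g)

/-- The lift preserves the sign of the determinant. -/
theorem det_lift (g : G48) :
    ((g : M2).det = 1 → (Ψ g : Matrix (Fin 2) (Fin 2) (ℤ√(-2))).det = 1) ∧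
      ((g : M2).det = -1 → (Ψ g : Matrix (Fin 2) (Fin 2) (ℤ√(-2))).det = -1) := by
  have h : red (Ψ g : Matrix (Fin 2) (Fin 2) (ℤ√(-2))).det = (g : M2).det := by
    rw [RingHom.map_det, RingHom.mapMatrix_apply, red_lift hΨ]
  have hu := unit_zsqrtd_neg_two (GeneralLinearGroup.det (Ψ g))
  rw [GeneralLinearGroup.val_det_apply] at hu
  rcases hu with e | e <;> rw [e] at h ⊢
  · rw [map_one] at h
    exact ⟨fun _ => rfl, fun h' => absurd (h.trans h') (by decide)⟩
  · rw [_root_.map_neg, map_one] at h
    exact ⟨fun h' => absurd (h.trans h') (by decide), fun _ => rfl⟩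

/-- The lift, through any embedding, has sign determinant and quaternionic traces on `Q₈`. -/
theorem isQuatRep_lift (ι : ℤ√(-2) →+* ℂ) (hι : Function.Injective ι) :
    IsQuatRep ((GeneralLinearGroup.map ι).comp Ψ) := by
  set R := (GeneralLinearGroup.map ι).comp Ψ
  have hmap : ∀ g : G48,
      (R g : MC) = (Ψ g : Matrix (Fin 2) (Fin 2) (ℤ√(-2))).map ι := fun g => rfl
  have hd : ∀ g : G48, (R g : MC).det = ι (Ψ g : Matrix (Fin 2) (Fin 2) (ℤ√(-2))).det := fun g => by
    rw [hmap, RingHom.map_det, RingHom.mapMatrix_apply]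
  have hdet1 : ∀ g : G48, (g : M2).det = 1 → (R g : MC).det = 1 := fun g h => by
    rw [hd, (det_lift hΨ g).1 h, map_one]
  have hneg : (R (-1) : MC) = -1 := by
    have h := mul_self_trace_det (R (-1) : MC)
    rw [hdet1 _ neg_one_det, ← Units.val_mul, ← map_mul, neg_mul_neg, one_mul, map_one,
      Units.val_one, one_smul] at h
    have e : (R (-1) : MC).trace • (R (-1) : MC) = (2 : ℂ) • 1 := by
      rw [two_smul]; exact (eq_add_of_sub_eq h.symm)
    set t := (R (-1) : MC).trace with ht
    have ht0 : t ≠ 0 := fun h0 => by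
      have h1 := congrFun (congrFun e 0) 0
      simp [h0] at h1
    have hM : (R (-1) : MC) = (2 / t) • (1 : MC) := by
      rw [eq_inv_smul_iff₀ ht0 |>.mpr e, smul_smul, div_eq_inv_mul]
    have hc : (2 / t) ^ 2 = 1 := by
      rw [← hdet1 _ neg_one_det, hM]; simp [pow_two]
    rcases sq_eq_one_iff.mp hc with hc | hc
    · exfalso
      rw [hc, one_smul, hmap] at hM
      have hP : (Ψ (-1) : Matrix (Fin 2) (Fin 2) (ℤ√(-2))) = 1 :=
        Matrix.map_injective hι (hM.trans (Matrix.map_one ι (map_zero ι) (map_one ι)).symm)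
      have h1 := red_lift hΨ (-1)
      rw [hP, Matrix.map_one red (map_zero red) (map_one red)] at h1
      exact neg_one_ne_one_gl (Units.ext h1.symm)
    · rw [hM, hc, neg_smul, one_smul]
  refine ⟨hdet1, fun g h => by rw [hd, (det_lift hΨ g).2 h, _root_.map_neg, map_one],
    fun g hg h4 => ?_⟩
  unfold quatTrace
  split_ifs with h1 h2
  · rw [h1, map_one, Units.val_one, trace_one, Fintype.card_fin]; norm_num
  · rw [show g = -1 from Units.ext (by rw [h2, Units.val_neg, Units.val_one]), hneg, trace_neg,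
      trace_one, Fintype.card_fin]
    norm_num
  · have hq : g ∈ quatSubgroup := mem_quat_of_pow_four hg h4
    obtain ⟨-, ht | ht | ht⟩ := mem_quatSubgroup.1 hq
    · have h := mul_self_trace_det (R g : MC)
      rw [hdet1 g hg, ← Units.val_mul, ← map_mul, sq_eq_neg_one hg ht, hneg,
        one_smul] at h
      have h' := congrArg Matrix.det (sub_eq_neg_self.mp h.symm)
      rw [det_smul, hdet1 g hg, det_zero] at h'
      simpa using h'
    · exact absurd (Units.ext ht) h1
    · exact absurd ht h2

/-- **Finite group comparison.**  A representation with sign determinant and quaternionic traces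
on `Q₈` has the character of the lift `Ψ` through some embedding of `ℤ[√-2]` in `ℂ`. -/
theorem exists_iota_trace {R : G48 →* GL (Fin 2) ℂ} (hR : IsQuatRep R) :
    ∃ ι : ℤ√(-2) →+* ℂ, ∀ g : G48, (R g : MC).trace =
      ι (Ψ g : Matrix (Fin 2) (Fin 2) (ℤ√(-2))).trace := by
  have hns : ∀ n : ℤ, (-2 : ℤ) ≠ n * n := fun n h => by nlinarith [mul_self_nonneg n]
  have ht : (R octStd : MC).trace ^ 2 = -2 :=
    hR.trace_sq_det_neg (g := octStd) (by decide) (by decide)
  set s := (R octStd : MC).trace
  let ι₀ : ℤ√(-2) →+* ℂ := Zsqrtd.lift ⟨s, by rw [← pow_two, ht]; norm_num⟩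
  have hinj₀ : Function.Injective ι₀ := Zsqrtd.lift_injective _ hns
  set x := (Ψ octStd : Matrix (Fin 2) (Fin 2) (ℤ√(-2))).trace with hx
  have hmap : ∀ (ι : ℤ√(-2) →+* ℂ) (g : G48),
      ((((GeneralLinearGroup.map ι).comp Ψ) g : GL (Fin 2) ℂ) : MC).trace =
        ι (Ψ g : Matrix (Fin 2) (Fin 2) (ℤ√(-2))).trace := fun ι g => by
    simp [trace_fin_two, map_add, GeneralLinearGroup.map]
  have hx2 : x * x = -2 := by
    refine hinj₀ ?_
    rw [map_mul, _root_.map_neg, map_ofNat, ← pow_two, hx, ← hmap]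
    exact (isQuatRep_lift hΨ ι₀ hinj₀).trace_sq_det_neg (g := octStd) (by decide) (by decide)
  have hre : x.re = 0 ∧ x.im * x.im = 1 := by
    rw [Zsqrtd.ext_iff] at hx2
    simp [Zsqrtd.re_mul, Zsqrtd.im_mul] at hx2
    obtain ⟨h1, h2⟩ := hx2
    have h3 : x.re * x.im = 0 := by linarith
    rcases mul_eq_zero.mp h3 with h | h
    · exact ⟨h, by rw [h] at h1; linarith⟩
    · rw [h] at h1; nlinarith [mul_self_nonneg x.re]
  obtain ⟨hre, him⟩ := hre
  have himC : (x.im : ℂ) * (x.im : ℂ) = 1 := by exact_mod_cast him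
  let ι : ℤ√(-2) →+* ℂ := Zsqrtd.lift ⟨(x.im : ℂ) * s, by
    rw [mul_mul_mul_comm, himC, one_mul, ← pow_two, ht]; norm_num⟩
  refine ⟨ι, fun g => ?_⟩
  rw [← hmap]
  refine trace_ext hR (isQuatRep_lift hΨ ι (Zsqrtd.lift_injective _ hns)) ?_ g
  rw [hmap, ← hx]
  show s = (x.re : ℂ) + (x.im : ℂ) * ((x.im : ℂ) * s)
  rw [hre, Int.cast_zero, zero_add, ← mul_assoc, himC, one_mul]

end Fermat.Agent.WeightOneLift
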