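import Fermat.Agent.Gal.Density
import Fermat.Agent.ResidualThree.BianchiForm.Galois
import Fermat.Agent.ResidualThree.BianchiForm.Places
import Fermat.Agent.WeightOneLift.Galois.Group

/-!
# The Galois representation of the weight-one form is the lift of `ρ`

A finite-level complex representation whose determinant and traces at the Frobenius elements agree
with `χ₋₃` and the quaternionic traces of `ρ` factors through `ρ`, so it has the character of the
lift `Ψ ∘ ρ`.
-/

noncomputable section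

namespace Fermat.Agent.WeightOneLift

open Matrix FLT.ExplicitLift EisensteinWeightOne WeierstrassCurve

local notation "Qbar" => AlgebraicClosure ℚ
local notation "Γℚ" => (AlgebraicClosure ℚ ≃ₐ[ℚ] AlgebraicClosure ℚ)
local notation "G48" => GL (Fin 2) (ZMod 3)
local notation "M2" => Matrix (Fin 2) (Fin 2) (ZMod 3)
local notation "MC" => Matrix (Fin 2) (Fin 2) ℂ

/-- The values of a homomorphism of finite level have finite order. -/
theorem exists_pow_eq_one_of_finite_level {M : Type} [Monoid M] {R : Γℚ →* M}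
    (hR : GaloisFactorsThroughFiniteLevel R) (σ : Γℚ) : ∃ n : ℕ, 0 < n ∧ R σ ^ n = 1 := by
  obtain ⟨L, hL, h⟩ := hR
  let N := IntermediateField.normalClosure ℚ L Qbar
  have : Normal ℚ N := normalClosure.normal ℚ L Qbar
  have : FiniteDimensional ℚ N := normalClosure.is_finiteDimensional ℚ L Qbar
  refine ⟨Nat.card Gal(N/ℚ), Nat.card_pos, ?_⟩
  rw [← map_pow]
  refine h _ fun x hx => ?_
  have hπ : AlgEquiv.restrictNormalHom (F := ℚ) (K₁ := Qbar) N (σ ^ Nat.card Gal(N/ℚ)) = 1 := by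
    rw [map_pow, pow_card_eq_one']
  have e := AlgEquiv.restrictNormal_commutes (σ ^ Nat.card Gal(N/ℚ)) N
    (⟨x, IntermediateField.le_normalClosure L hx⟩ : N)
  rw [show (σ ^ Nat.card Gal(N/ℚ)).restrictNormal N = 1 from hπ] at e
  exact e.symm

/-- A complex matrix of finite order with determinant one and trace two is trivial. -/
theorem eq_one_of_trace_two {M : MC} (hd : M.det = 1) (ht : M.trace = 2) {n : ℕ} (hn : 0 < n)
    (h : M ^ n = 1) : M = 1 := by
  have hN : (M - 1) * (M - 1) = 0 := by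
    rw [sub_mul, mul_sub, mul_sub, ResidualThree.mul_self_trace_det, hd, ht, one_smul, mul_one,
      one_mul, one_mul, two_smul]
    abel
  have key : ∀ k : ℕ, M ^ k = 1 + (k : ℂ) • (M - 1) := fun k => by
    induction k with
    | zero => simp
    | succ k ih =>
      rw [pow_succ, ih, add_mul, one_mul, smul_mul_assoc,
        show (M - 1) * M = M - 1 by rw [← sub_eq_zero, ← hN]; noncomm_ring,
        Nat.cast_add_one, add_smul, one_smul]
      abel
  have h1 : (n : ℂ) • (M - 1) = 0 := by simpa [h] using (key n).symm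
  exact sub_eq_zero.mp ((smul_eq_zero.mp h1).resolve_left (by exact_mod_cast hn.ne'))

/-- A matrix of determinant one has the trace of its inverse. -/
theorem trace_inv_of_det_one {A : Type} [CommRing A] (u : GL (Fin 2) A)
    (hd : (u : Matrix (Fin 2) (Fin 2) A).det = 1) :
    ((u⁻¹ : GL (Fin 2) A) : Matrix (Fin 2) (Fin 2) A).trace =
      (u : Matrix (Fin 2) (Fin 2) A).trace := by
  rw [Matrix.coe_units_inv, Matrix.inv_def, hd, Ring.inverse_one, one_smul, adjugate_fin_two,
    trace_fin_two, trace_fin_two]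
  simp [add_comm]

/-- The quaternionic trace of an element is that of its inverse. -/
theorem quatTrace_inv (g : G48) :
    ResidualThree.quatTrace g⁻¹ = ResidualThree.quatTrace g := by
  have h : ∀ x : G48, (x : M2) = -1 ↔ x = -1 := fun x => by
    rw [Units.ext_iff, Units.val_neg, Units.val_one]
  simp only [ResidualThree.quatTrace, h, inv_eq_iff_eq_inv, inv_one, inv_neg_one]

/-- **Comparison of `R` with the lift.**  If, at almost every Frobenius element, `R` has
determinant `χ₋₃(p)` and, on those landing in `Q₈`, the quaternionic trace of `ρ`, then it has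
the character of `ι ∘ Ψ ∘ ρ` for some `ι : ℤ[√-2] → ℂ`. -/
theorem exists_trace_eq_lift {ρ : Γℚ →* G48} (hρ : Continuous ρ) (hsurj : Function.Surjective ρ)
    (hdet : ∀ σ : Γℚ, Matrix.GeneralLinearGroup.det (ρ σ) = modThreeCyclotomicChar σ)
    {Ψ : G48 →* GL (Fin 2) (ℤ√(-2))} (hΨ : ∀ g, Matrix.GeneralLinearGroup.map red (Ψ g) = g)
    {R : Γℚ →* GL (Fin 2) ℂ} (hR : GaloisFactorsThroughFiniteLevel R) (S : Finset ℕ)
    (hfrob : ∀ p : ℕ, p.Prime → p ∉ S → ∀ A : ValuationSubring Qbar, A.LiesOverPrime p →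
      ∀ σ : Γℚ, A.IsFrobeniusAt σ p →
        (R σ : MC).det = ((chiNegThree p : ℤ) : ℂ) ∧
        (p % 3 = 1 → ρ σ ^ 4 = 1 → (R σ : MC).trace = (ResidualThree.quatTrace (ρ σ) : ℂ))) :
    ∃ ι : ℤ√(-2) →+* ℂ, ∀ σ : Γℚ, (R σ : MC).trace =
      ι (Ψ (ρ σ) : Matrix (Fin 2) (Fin 2) (ℤ√(-2))).trace := by
  classical
  have hfac : GaloisFactorsThroughFiniteLevel (R.prod ρ) := by
    obtain ⟨L₁, h₁, e₁⟩ := hR
    obtain ⟨L₂, h₂, e₂⟩ := ResidualThree.BianchiForm.factors_of_continuous ρ hρ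
    exact ⟨L₁ ⊔ L₂, inferInstance, fun σ hσ =>
      Prod.ext (e₁ σ fun x hx => hσ x ((le_sup_left : L₁ ≤ L₁ ⊔ L₂) hx))
        (e₂ σ fun x hx => hσ x ((le_sup_right : L₂ ≤ L₁ ⊔ L₂) hx))⟩
  -- every element generates with a good Frobenius element
  have key : ∀ g : Γℚ, ∃ (p : ℕ) (σ : Γℚ) (a b : ℕ), (R σ : MC).det = ((chiNegThree p : ℤ) : ℂ) ∧
      (p % 3 = 1 → ρ σ ^ 4 = 1 → (R σ : MC).trace = (ResidualThree.quatTrace (ρ σ) : ℂ)) ∧
      (ρ σ : M2).det = (p : ZMod 3) ∧ p % 3 ≠ 0 ∧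
      R g = R σ ^ a ∧ ρ g = ρ σ ^ a ∧ ρ σ = ρ g ^ b := fun g => by
    obtain ⟨p, hp, hpS, A, hA, σ, hσ, a, b, ha, hb⟩ :=
      Gal.exists_frobenius_map_generates (R.prod ρ) hfac g (insert 3 S)
    rw [Finset.mem_insert, not_or] at hpS
    obtain ⟨hd, ht⟩ := hfrob p hp hpS.2 A hA σ hσ
    have hd3 : (ρ σ : M2).det = (p : ZMod 3) := by
      rw [← GeneralLinearGroup.val_det_apply, hdet, ResidualThree.BianchiForm.chi_frobenius hp
        hpS.1 hA hσ]
    have h0 : p % 3 ≠ 0 := fun h => hpS.1 ((Nat.prime_dvd_prime_iff_eq Nat.prime_three hp).mp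
      (Nat.dvd_of_mod_eq_zero h)).symm
    exact ⟨p, σ, a, b, hd, ht, hd3, h0,
      congrArg Prod.fst ha, congrArg Prod.snd ha, congrArg Prod.snd hb⟩
  have hdetR : ∀ g : Γℚ, ((ρ g : M2).det = 1 → (R g : MC).det = 1) ∧
      ((ρ g : M2).det = -1 → (R g : MC).det = -1) := fun g => by
    obtain ⟨p, σ, a, b, hd, -, hd3, h0, hRa, hρa, -⟩ := key g
    rw [hRa, hρa, Units.val_pow_eq_pow_val, Units.val_pow_eq_pow_val, det_pow, det_pow, hd, hd3]
    rw [← ZMod.natCast_mod p 3]
    rcases (show p % 3 = 1 ∨ p % 3 = 2 by omega) with h | h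
    · rw [chiNegThree, if_pos h, h, Nat.cast_one, one_pow, Int.cast_one, one_pow]
      exact ⟨fun _ => rfl, fun h' => absurd h' (by decide)⟩
    · rw [chiNegThree, if_neg (by omega), if_pos h, h,
        show ((2 : ℕ) : ZMod 3) = -1 from rfl, Int.cast_neg, Int.cast_one]
      rcases Nat.even_or_odd a with ha | ha
      · rw [ha.neg_one_pow, ha.neg_one_pow]
        exact ⟨fun _ => rfl, fun h' => absurd h' (by decide)⟩
      · rw [ha.neg_one_pow, ha.neg_one_pow]
        exact ⟨fun h' => absurd h' (by decide), fun _ => rfl⟩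
  have hmod : ∀ {p : ℕ} {σ : Γℚ}, (ρ σ : M2).det = (p : ZMod 3) → (ρ σ : M2).det = 1 → p % 3 = 1 :=
    fun {p σ} h h1 => by
      have := (ZMod.natCast_eq_natCast_iff' p 1 3).mp (by rw [← h, h1, Nat.cast_one])
      simpa using this
  have hker : ρ.ker ≤ R.ker := fun g hg => by
    rw [MonoidHom.mem_ker] at hg ⊢
    obtain ⟨p, σ, a, b, hd, ht, hd3, -, hRa, -, hb⟩ := key g
    rw [hg, one_pow] at hb
    have h1 : (ρ σ : M2).det = 1 := by rw [hb, Units.val_one, det_one]
    have ht2 := ht (hmod hd3 h1) (by rw [hb, one_pow])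
    rw [hb, ResidualThree.quatTrace, if_pos rfl] at ht2
    obtain ⟨n, hn, hpow⟩ := exists_pow_eq_one_of_finite_level hR σ
    have hσ1 : (R σ : MC) = 1 := eq_one_of_trace_two ((hdetR σ).1 h1) (by rw [ht2]; norm_num) hn
      (by rw [← Units.val_pow_eq_pow_val, hpow, Units.val_one])
    rw [hRa, show R σ = 1 from Units.ext hσ1, one_pow]
  set R' : G48 →* GL (Fin 2) ℂ := MonoidHom.liftOfSurjective ρ hsurj ⟨R, hker⟩
  have hR' : ∀ σ, R' (ρ σ) = R σ := fun σ =>
    MonoidHom.liftOfRightInverse_comp_apply ρ _ _ ⟨R, hker⟩ σ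
  have hq : IsQuatRep R' := by
    refine ⟨fun g h => ?_, fun g h => ?_, fun g hg h4 => ?_⟩
    · obtain ⟨γ, rfl⟩ := hsurj g
      rw [hR']; exact (hdetR γ).1 h
    · obtain ⟨γ, rfl⟩ := hsurj g
      rw [hR']; exact (hdetR γ).2 h
    · obtain ⟨γ, rfl⟩ := hsurj g
      obtain ⟨p, σ, a, b, -, ht, hd3, -, -, hρa, hb⟩ := key γ
      have hσd : (ρ σ : M2).det = 1 := by
        rw [hb, Units.val_pow_eq_pow_val, det_pow, hg, one_pow]
      have hσ4 : ρ σ ^ 4 = 1 := by rw [hb, ← pow_mul, mul_comm, pow_mul, h4, one_pow]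
      have htσ := ht (hmod hd3 hσd) hσ4
      rw [← hR' σ] at htσ
      rw [pow_eq_pow_mod b h4] at hb
      have hR1 : (ρ γ = 1) → (R' (ρ γ) : MC).trace = (ResidualThree.quatTrace (ρ γ) : ℂ) :=
        fun e => by
        rw [e, map_one, Units.val_one, trace_one, ResidualThree.quatTrace, if_pos rfl,
          Fintype.card_fin]
        norm_num
      rcases (show b % 4 = 0 ∨ b % 4 = 1 ∨ b % 4 = 2 ∨ b % 4 = 3 by omega) with e | e | e | e <;>
        rw [e] at hb
      · exact hR1 (by rw [hρa, hb, pow_zero, one_pow])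
      · rwa [hb, pow_one] at htσ
      · refine hR1 ?_
        rw [hb, ← pow_mul, pow_eq_pow_mod (2 * a) h4] at hρa
        rcases (show 2 * a % 4 = 0 ∨ 2 * a % 4 = 2 by omega) with e' | e' <;> rw [e'] at hρa
        · rwa [pow_zero] at hρa
        · rw [pow_two] at hρa
          exact mul_eq_left.mp hρa.symm
      · have hinv : ρ σ = (ρ γ)⁻¹ :=
          eq_inv_of_mul_eq_one_left (by rw [hb, ← pow_succ]; exact h4)
        have hd' : (R' (ρ γ) : MC).det = 1 := by rw [hR']; exact (hdetR γ).1 hg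
        rwa [hinv, map_inv, trace_inv_of_det_one _ hd', quatTrace_inv] at htσ
  obtain ⟨ι, hι⟩ := exists_iota_trace hΨ hq
  exact ⟨ι, fun σ => by rw [← hR', hι]⟩

end Fermat.Agent.WeightOneLift
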